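import Fermat.Agent.EllFlat.GoodFlat
import Fermat.Agent.EllTate.Local

set_option autoImplicit false

/-!
# Good reduction: the Tate module `T_p E` is flat at `p`
-/

open WeierstrassCurve WeierstrassCurve.Affine WeierstrassCurve.Affine.Point
open Fermat.Agent.Flat Fermat.Agent.EllTate

namespace Fermat.Agent.EllFlat

variable {p : ℕ} [hp : Fact p.Prime]

/-- **`T_p E` is flat at `p` if `E` has good reduction at `p`.** -/
theorem ellTate_isFlatAt_of_goodRed (W : WeierstrassCurve ℚ) [W.IsElliptic]
    (hW : HasGoodRed W p) : (ellTate W p).IsFlatAt p := by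
  have : WeierstrassCurve.IsElliptic (W⁄(AlgebraicClosure ℚ)) :=
    inferInstanceAs (W.map (algebraMap ℚ (AlgebraicClosure ℚ))).IsElliptic
  exact isFlatAt' fun n => isFlatModel_torsion hp.out hW n

/-- **`T_p E` is flat at `p` if `p ∤ Δ`**, for an integral Weierstrass equation. -/
theorem ellTate_isFlatAt_of_int (W : WeierstrassCurve ℤ)
    [(W.map (Int.castRingHom ℚ)).IsElliptic] (hW : ¬ (p : ℤ) ∣ W.Δ) :
    (ellTate (W.map (Int.castRingHom ℚ)) p).IsFlatAt p :=
  ellTate_isFlatAt_of_goodRed _ (hasGoodRed_of_int hp.out W hW)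

end Fermat.Agent.EllFlat
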