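import Mathlib
import Fermat.Agent.EllRed.GoodTorsion

set_option autoImplicit false

/-!
# Coordinates of points as total functions; their reductions

Also: integrality of functions on a finite set, inverses of units in integral extensions.
-/

open WeierstrassCurve WeierstrassCurve.Affine WeierstrassCurve.Affine.Point
open Polynomial Fermat.Agent.RedHom

namespace Fermat.Agent.EllFlat

section Generic

/-- A function on a finite set with integral values is integral. -/
theorem isIntegral_fun {R B T : Type*} [CommRing R] [CommRing B] [Algebra R B] [Finite T]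
    {f : T → B} (hf : ∀ t, IsIntegral R (f t)) : IsIntegral R f := by
  have := Fintype.ofFinite T
  choose g hg1 hg2 using hf
  refine ⟨∏ t, g t, monic_prod_of_monic _ _ fun t _ => hg1 t, ?_⟩
  funext t
  have h1 : (eval₂ (algebraMap R (T → B)) f (∏ t, g t)) t =
      eval₂ (algebraMap R B) (f t) (∏ t, g t) := by
    have h2 := hom_eval₂ (∏ t, g t) (algebraMap R (T → B)) (Pi.evalRingHom (fun _ : T => B) t) f
    exact h2
  rw [h1, eval₂_finsetProd, Pi.zero_apply]
  exact Finset.prod_eq_zero (Finset.mem_univ t) (hg2 t)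

/-- If `δ ∈ S` is invertible with inverse integral over the base ring, the inverse is in `S`. -/
theorem inv_mem_of_isIntegral {R B : Type*} [CommRing R] [CommRing B] [Algebra R B]
    (S : Subalgebra R B) {δ u : B} (hδ : δ ∈ S) (h : δ * u = 1) (hu : IsIntegral R u) : u ∈ S := by
  obtain ⟨f, hf, hfu⟩ := hu
  let _ : Invertible u := ⟨δ, h, by rw [mul_comm]; exact h⟩
  have h1 := eval₂_reverse_mul_pow (algebraMap R B) u f
  have h1' : (⅟u : B) = δ := rfl
  rw [hfu, h1'] at h1
  have hupow : IsUnit (u ^ f.natDegree) := (IsUnit.of_mul_eq_one δ (by rw [mul_comm]; exact h)).pow _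
  have h2 : eval₂ (algebraMap R B) δ f.reverse = 0 := by
    rwa [hupow.mul_left_eq_zero] at h1
  have h3 : f.reverse = X * f.reverse.divX + C (f.reverse.coeff 0) := by
    rw [mul_comm, Polynomial.divX_mul_X_add]
  rw [h3, eval₂_add, eval₂_mul, eval₂_X, eval₂_C, coeff_zero_reverse, hf.leadingCoeff, map_one]
    at h2
  have h4 : u = - eval₂ (algebraMap R B) δ f.reverse.divX := by
    have h5 : δ * (- eval₂ (algebraMap R B) δ f.reverse.divX) = 1 := by linear_combination - h2
    calc u = u * (δ * (- eval₂ (algebraMap R B) δ f.reverse.divX)) := by rw [h5, mul_one]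
      _ = (δ * u) * (- eval₂ (algebraMap R B) δ f.reverse.divX) := by ring
      _ = _ := by rw [h, one_mul]
  rw [h4]
  refine neg_mem ?_
  have h5 : eval₂ (algebraMap R B) δ f.reverse.divX = aeval δ f.reverse.divX := rfl
  rw [h5]
  exact Algebra.adjoin_le (Set.singleton_subset_iff.mpr hδ) (aeval_mem_adjoin_singleton R δ)

end Generic

section Coord

variable {L : Type*} [Field L] {V : WeierstrassCurve L}

/-- The `x`-coordinate of a point (`0` for the point at infinity). -/
def cx : V.toAffine.Point → L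
  | .zero => 0
  | .some x _ _ => x

/-- The `y`-coordinate of a point (`0` for the point at infinity). -/
def cy : V.toAffine.Point → L
  | .zero => 0
  | .some _ y _ => y

@[simp] theorem cx_some {x y : L} (h : V.toAffine.Nonsingular x y) :
    cx (.some x y h : V.toAffine.Point) = x := rfl

@[simp] theorem cy_some {x y : L} (h : V.toAffine.Nonsingular x y) :
    cy (.some x y h : V.toAffine.Point) = y := rfl

@[simp] theorem cx_zero : cx (0 : V.toAffine.Point) = 0 := rfl

@[simp] theorem cy_zero : cy (0 : V.toAffine.Point) = 0 := rfl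

theorem eq_of_coord {P Q : V.toAffine.Point} (hP : P ≠ 0) (hQ : Q ≠ 0) (hx : cx P = cx Q)
    (hy : cy P = cy Q) : P = Q := by
  rcases P with _ | ⟨x, y, h⟩
  · exact absurd rfl hP
  rcases Q with _ | ⟨x', y', h'⟩
  · exact absurd rfl hQ
  simp only [cx_some, cy_some] at hx hy
  subst hx hy
  rfl

theorem eq_or_eq_neg_of_cx {P Q : V.toAffine.Point} (hP : P ≠ 0) (hQ : Q ≠ 0)
    (hx : cx P = cx Q) : P = Q ∨ P = -Q := by
  rcases P with _ | ⟨x, y, h⟩
  · exact absurd rfl hP
  rcases Q with _ | ⟨x', y', h'⟩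
  · exact absurd rfl hQ
  simp only [cx_some] at hx
  subst hx
  rcases Y_eq_of_X_eq h.1 h'.1 rfl with rfl | rfl
  · exact Or.inl rfl
  · exact Or.inr rfl

variable [DecidableEq L]

/-- chord formulas -/
theorem coord_add {P Q : V.toAffine.Point} (hP : P ≠ 0) (hQ : Q ≠ 0) (hx : cx P ≠ cx Q) :
    cx (P + Q) = V.toAffine.addX (cx P) (cx Q) ((cy P - cy Q) * (cx P - cx Q)⁻¹) ∧
    cy (P + Q) = V.toAffine.addY (cx P) (cx Q) (cy P) ((cy P - cy Q) * (cx P - cx Q)⁻¹) := by
  rcases P with _ | ⟨x, y, h⟩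
  · exact absurd rfl hP
  rcases Q with _ | ⟨x', y', h'⟩
  · exact absurd rfl hQ
  simp only [cx_some] at hx
  rw [add_of_X_ne hx, cx_some, cy_some, cx_some, cx_some, cy_some, cy_some,
    slope_of_X_ne hx, div_eq_mul_inv]
  exact ⟨rfl, rfl⟩

end Coord

section Red

variable {L k : Type*} [Field L] [Field k] {A : ValuationSubring L} {φ : A →+* k}
  {V : WeierstrassCurve L} {U : WeierstrassCurve k}

theorem redTo_coord {P : V.toAffine.Point} {P' : U.toAffine.Point} (h : PointRed φ P P')
    (hP' : P' ≠ 0) : RedTo φ (cx P) (cx P') ∧ RedTo φ (cy P) (cy P') := by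
  rcases P with _ | ⟨x, y, hxy⟩
  · exact absurd (pointRed_zero_iff.mp h) hP'
  rcases P' with _ | ⟨x', y', hxy'⟩
  · exact absurd rfl hP'
  exact pointRed_some_some_iff.mp h

variable [IsLocalHom φ]

theorem coord_ne_of_red_ne {P Q : V.toAffine.Point} {P' Q' : U.toAffine.Point}
    (hP : PointRed φ P P') (hQ : PointRed φ Q Q') (hP' : P' ≠ 0) (hQ' : Q' ≠ 0) (hne : P' ≠ Q') :
    cx P - cx Q ∉ A.nonunits ∨ cy P - cy Q ∉ A.nonunits := by
  obtain ⟨h1, h2⟩ := redTo_coord hP hP'
  obtain ⟨h3, h4⟩ := redTo_coord hQ hQ'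
  rw [← (h1.sub h3).eq_zero_iff, ← (h2.sub h4).eq_zero_iff]
  by_contra hcon
  push Not at hcon
  exact hne (eq_of_coord hP' hQ' (sub_eq_zero.mp hcon.1) (sub_eq_zero.mp hcon.2))

theorem cx_ne_of_red_ne {P Q : V.toAffine.Point} {P' Q' : U.toAffine.Point}
    (hP : PointRed φ P P') (hQ : PointRed φ Q Q') (hP' : P' ≠ 0) (hQ' : Q' ≠ 0) (hne : P' ≠ Q')
    (hne' : P' ≠ -Q') : cx P - cx Q ∉ A.nonunits := by
  obtain ⟨h1, h2⟩ := redTo_coord hP hP'
  obtain ⟨h3, h4⟩ := redTo_coord hQ hQ'
  rw [← (h1.sub h3).eq_zero_iff]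
  intro h0
  rcases eq_or_eq_neg_of_cx hP' hQ' (sub_eq_zero.mp h0) with h | h
  · exact hne h
  · exact hne' h

end Red

end Fermat.Agent.EllFlat
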