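import Mathlib
import Fermat.Prelude.Def_FLTPrelim_Ramification
import Fermat.Agent.QbarInst
import Fermat.Agent.Flat.LocalizedAt

set_option autoImplicit false

/-!
# Integrality over `ℤ₍p₎` and the places of `ℚ̄` above `p`
-/

open Polynomial Fermat.Agent.Flat

namespace Fermat.Agent.EllFlat

local notation "Qbar" => AlgebraicClosure ℚ

variable {p : ℕ}

theorem isUnit_or_dvd (hp : p.Prime) (a : ZL p) : IsUnit a ∨ (p : ZL p) ∣ a := by
  by_cases h : (p : ℤ) ∣ (a : ℚ).num
  · right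
    obtain ⟨c, hc⟩ := h
    refine ⟨⟨(c : ℚ), intCast_mem_ZL c⟩ * ⟨(((a : ℚ).den : ℚ))⁻¹, inv_natCast_mem_ZL a.2⟩, ?_⟩
    apply Subtype.ext
    push_cast
    have h1 := Rat.num_div_den (a : ℚ)
    rw [hc] at h1
    push_cast at h1
    have hmem : ((p : ZL p) : ℚ) = (p : ℚ) := by simp
    rw [← mul_assoc, ← div_eq_mul_inv, h1]
  · left
    have hne : (a : ℚ) ≠ 0 := by
      intro h0
      rw [h0] at h
      simp at h
    have hinv : ((a : ℚ)⁻¹) ∈ GaloisRep.ratLocalizedAt p := by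
      rw [mem_ZL, Rat.den_inv_of_ne_zero hne, Nat.coprime_comm, Nat.Prime.coprime_iff_not_dvd hp]
      intro h'
      exact h (Int.natCast_dvd.mpr h')
    refine IsUnit.of_mul_eq_one ⟨_, hinv⟩ ?_
    apply Subtype.ext
    exact mul_inv_cancel₀ hne

theorem not_isUnit_natCast (hp : p.Prime) : ¬ IsUnit (p : ZL p) := by
  intro h
  obtain ⟨b, hb⟩ := h.exists_right_inv
  have h1 : (p : ℚ) * (b : ℚ) = 1 := by
    have := congrArg Subtype.val hb
    exact_mod_cast this
  have h2 : (b : ℚ) = (p : ℚ)⁻¹ := (inv_eq_of_mul_eq_one_right h1).symm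
  have h3 : ((p : ℚ)⁻¹).den.Coprime p := h2 ▸ b.2
  rw [Rat.inv_natCast_den_of_pos hp.pos, Nat.coprime_self] at h3
  exact hp.one_lt.ne' h3

theorem natCast_mem_of_isMaximal (hp : p.Prime) (M : Ideal (ZL p)) [hM : M.IsMaximal] :
    (p : ZL p) ∈ M := by
  by_contra h
  obtain ⟨a, b, hb, hab⟩ := hM.exists_inv h
  rcases isUnit_or_dvd hp b with hu | ⟨c, hc⟩
  · exact hM.ne_top (Ideal.eq_top_of_isUnit_mem _ hb hu)
  · apply not_isUnit_natCast hp
    rw [hc] at hab
    exact IsUnit.of_mul_eq_one (a + c) (by rw [← hab]; ring)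

theorem natCast_mem_of_isMaximal_of_isIntegral (hp : p.Prime) {B : Type*} [CommRing B]
    [Algebra (ZL p) B] [Algebra.IsIntegral (ZL p) B] (M : Ideal B) [hM : M.IsMaximal] :
    (p : B) ∈ M := by
  have : (M.comap (algebraMap (ZL p) B)).IsMaximal :=
    Ideal.isMaximal_comap_of_isIntegral_of_isMaximal M
  have h := natCast_mem_of_isMaximal hp (M.comap (algebraMap (ZL p) B))
  rw [Ideal.mem_comap, map_natCast] at h
  exact h

/-- A valuation subring of `ℚ̄` containing `ℤ₍p₎` is a place above `p` or everything. -/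
theorem liesOverPrime_or_eq_top (hp : p.Prime) (V : ValuationSubring Qbar)
    (hV : ∀ r : ZL p, algebraMap (ZL p) Qbar r ∈ V) : V.LiesOverPrime p ∨ V = ⊤ := by
  by_cases h : ((p : ℕ) : Qbar) ∈ V.nonunits
  · exact Or.inl h
  · right
    have hp0 : ((p : ℕ) : Qbar) ≠ 0 := by exact_mod_cast hp.ne_zero
    have hinv : (((p : ℕ) : Qbar))⁻¹ ∈ V := by
      by_contra hcon
      apply h
      have h1 := (V.mem_or_inv_mem (((p : ℕ) : Qbar))⁻¹).resolve_left hcon
      rw [inv_inv] at h1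
      rcases (V.inv_mem_nonunits_iff (x := (((p : ℕ) : Qbar))⁻¹)).mpr (Or.inr hcon) with h2
      rwa [inv_inv] at h2
    have hQ : ∀ q : ℚ, algebraMap ℚ Qbar q ∈ V := by
      intro q
      obtain ⟨k, c, hc, hkc⟩ := Nat.exists_eq_pow_mul_and_not_dvd q.den_nz p hp.one_lt.ne'
      have hc0 : (c : ℚ) ≠ 0 := by
        rintro h0
        rw [Nat.cast_eq_zero] at h0
        rw [h0] at hc
        exact hc (dvd_zero _)
      have hcop : c.Coprime p := by
        rw [Nat.coprime_comm]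
        exact (Nat.Prime.coprime_iff_not_dvd hp).mpr hc
      have hpq : (p : ℚ) ≠ 0 := by exact_mod_cast hp.ne_zero
      have h1 : q = ((q.num : ℚ) * (c : ℚ)⁻¹) * ((p : ℚ)⁻¹) ^ k := by
        conv_lhs => rw [← Rat.num_div_den q, hkc]
        push_cast
        rw [inv_pow]
        field_simp
      rw [h1, map_mul, map_pow, map_inv₀, map_natCast]
      refine V.mul_mem _ _ ?_ (pow_mem hinv k)
      exact hV (⟨(q.num : ℚ), intCast_mem_ZL _⟩ * ⟨(c : ℚ)⁻¹, inv_natCast_mem_ZL hcop⟩)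
    rw [eq_top_iff]
    intro x _
    have hint : IsIntegral ℚ x := Algebra.IsIntegral.isIntegral (R := ℚ) x
    obtain ⟨f, hf, hfx⟩ := hint
    have hcoe : ∀ i, algebraMap ℚ Qbar (f.coeff i) ∈ V.toSubring := fun i => hQ _
    have hint' : IsIntegral V x := by
      let g : ℚ →+* V := (algebraMap ℚ Qbar).codRestrict V.toSubring hQ
      refine ⟨f.map g, hf.map g, ?_⟩
      rw [eval₂_map]
      exact hfx
    obtain ⟨y, hy⟩ := IsIntegrallyClosed.isIntegral_iff.mp hint'
    rw [← hy]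
    exact y.2

/-- An element of `ℚ̄` which lies in all places above `p` is integral over `ℤ₍p₎`. -/
theorem isIntegral_of_forall_mem (hp : p.Prime) {x : Qbar}
    (hx : ∀ A : ValuationSubring Qbar, A.LiesOverPrime p → x ∈ A) : IsIntegral (ZL p) x := by
  by_contra hcon
  let R : Subring Qbar := (integralClosure (ZL p) Qbar).toSubring
  have hR : IsIntegrallyClosedIn R Qbar :=
    inferInstanceAs (IsIntegrallyClosedIn (integralClosure (ZL p) Qbar) Qbar)
  have hxR : x ∉ R := hcon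
  obtain ⟨V, hV, hxV⟩ := Subring.exists_le_valuationSubring_of_isIntegrallyClosedIn hxR
  rcases liesOverPrime_or_eq_top hp V (fun r => hV (isIntegral_algebraMap)) with h | h
  · exact hxV (hx V h)
  · rw [h] at hxV
    exact hxV (ValuationSubring.mem_top x)

theorem mem_of_isIntegral {x : Qbar} (hx : IsIntegral (ZL p) x) (A : ValuationSubring Qbar)
    (hA : A.LiesOverPrime p) : x ∈ A := by
  have hZ : ∀ r : ZL p, algebraMap (ZL p) Qbar r ∈ A := by
    intro r
    have h1 : ((r : ℚ).den : Qbar) * algebraMap (ZL p) Qbar r = ((r : ℚ).num : Qbar) := by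
      have h2 := Rat.den_mul_eq_num (r : ℚ)
      have h3 := congrArg (algebraMap ℚ Qbar) h2
      rw [map_mul, map_natCast, map_intCast] at h3
      exact h3
    have hd : ((r : ℚ).den : Qbar) ≠ 0 := by exact_mod_cast (r : ℚ).den_nz
    -- `den` is a unit at `A`
    have hdA : (((r : ℚ).den : Qbar))⁻¹ ∈ A := by
      by_contra hcon
      have h4 : ((r : ℚ).den : Qbar) ∈ A.nonunits := by
        have := (A.inv_mem_nonunits_iff (x := (((r : ℚ).den : Qbar))⁻¹)).mpr (Or.inr hcon)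
        rwa [inv_inv] at this
      have h5 : ((p : ℕ) : Qbar) ∈ A.nonunits := hA
      have h6 : IsCoprime ((r : ℚ).den : ℤ) (p : ℤ) := Nat.isCoprime_iff_coprime.mpr r.2
      obtain ⟨a, b, hab⟩ := h6
      have h7 : (a : Qbar) * ((r : ℚ).den : Qbar) + (b : Qbar) * ((p : ℕ) : Qbar) = 1 := by
        exact_mod_cast congrArg (fun z : ℤ => (z : Qbar)) hab
      rw [ValuationSubring.mem_nonunits_iff_exists_mem_maximalIdeal] at h4 h5
      obtain ⟨h4a, h4b⟩ := h4
      obtain ⟨h5a, h5b⟩ := h5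
      have h8 : (1 : A) ∈ IsLocalRing.maximalIdeal A := by
        have h9 := Ideal.add_mem _ (Ideal.mul_mem_left _ (a : A) h4b)
          (Ideal.mul_mem_left _ (b : A) h5b)
        have h10 : ((a : A) * ⟨_, h4a⟩ + (b : A) * ⟨_, h5a⟩ : A) = 1 := by
          apply Subtype.ext
          push_cast
          exact h7
        rwa [h10] at h9
      exact (Ideal.ne_top_iff_one _).mp (IsLocalRing.maximalIdeal.isMaximal A).ne_top h8
    have h11 : algebraMap (ZL p) Qbar r = (((r : ℚ).den : Qbar))⁻¹ * ((r : ℚ).num : Qbar) := by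
      rw [← h1, inv_mul_cancel_left₀ hd]
    rw [h11]
    exact mul_mem hdA (intCast_mem A _)
  obtain ⟨f, hf, hfx⟩ := hx
  have hint' : IsIntegral A x := by
    let g : ZL p →+* A := (algebraMap (ZL p) Qbar).codRestrict A.toSubring hZ
    refine ⟨f.map g, hf.map g, ?_⟩
    rw [eval₂_map]
    exact hfx
  obtain ⟨y, hy⟩ := IsIntegrallyClosed.isIntegral_iff.mp hint'
  rw [← hy]
  exact y.2

/-- unit ideal criterion -/
theorem eq_top_of_forall_place (hp : p.Prime) (S : Subalgebra (ZL p) Qbar)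
    (hS : ∀ s ∈ S, IsIntegral (ZL p) s) (I : Ideal S)
    (hI : ∀ A : ValuationSubring Qbar, A.LiesOverPrime p → ∃ d ∈ I, (d : Qbar) ∉ A.nonunits) :
    I = ⊤ := by
  by_contra hne
  obtain ⟨M, hM, hIM⟩ := I.exists_le_maximal hne
  have hint : Algebra.IsIntegral (ZL p) S :=
    ⟨fun s => (isIntegral_algHom_iff S.val Subtype.val_injective).mp (hS s s.2)⟩
  have hpM : (p : S) ∈ M := natCast_mem_of_isMaximal_of_isIntegral hp M
  obtain ⟨V, hV1, hV2⟩ := Ideal.image_subset_nonunits_valuationSubring (A := S.toSubring) M hM.ne_top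
  have hV : V.LiesOverPrime p := by
    have h1 := hV2 ⟨(p : S), hpM, rfl⟩
    have h2 : (S.toSubring.subtype (p : S) : Qbar) = ((p : ℕ) : Qbar) := map_natCast _ _
    rw [h2] at h1
    exact h1
  obtain ⟨d, hd, hdV⟩ := hI V hV
  exact hdV (hV2 ⟨d, hIM hd, rfl⟩)

end Fermat.Agent.EllFlat
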