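import Mathlib
import Fermat.Agent.Flat.FlatModel
import Fermat.Agent.EllFlat.Integral

set_option autoImplicit false

/-!
# Descent of flat models along unramified extensions of `ℤ₍p₎`
-/

open Fermat.Agent.Flat

namespace Fermat.Agent.EllFlat

section Generic

variable {G B : Type*} [Group G] [CommRing B] [MulSemiringAction G B] (N : Subgroup G)
  [Fintype (G ⧸ N)]

/-- sum over coset representatives -/
noncomputable def cosetSum (b : B) : B := ∑ c : G ⧸ N, c.out • b

variable {N}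

omit [Fintype (G ⧸ N)] in
theorem out_smul {b : B} (hb : ∀ n ∈ N, n • b = b) (g : G) :
    (g : G ⧸ N).out • b = g • b := by
  obtain ⟨h, hh⟩ := QuotientGroup.mk_out_eq_mul N g
  rw [hh, mul_smul, hb h h.2]

theorem smul_cosetSum {b : B} (hb : ∀ n ∈ N, n • b = b) (g : G) :
    g • cosetSum N b = cosetSum N b := by
  rw [cosetSum, Finset.smul_sum]
  rw [← Equiv.sum_comp (MulAction.toPerm g : Equiv.Perm (G ⧸ N)) (fun c => c.out • b)]
  refine Finset.sum_congr rfl fun c _ => ?_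
  rw [MulAction.toPerm_apply]
  have h1 : g • c = ((g * c.out : G) : G ⧸ N) := by
    conv_lhs => rw [← QuotientGroup.out_eq' c]
    rfl
  rw [h1, out_smul hb, mul_smul]

/-- decomposition along dual elements -/
theorem eq_sum_mul_cosetSum {ι : Type*} [Fintype ι] {x y : ι → B} [DecidablePred (· ∈ N)]
    (h : ∀ g : G, ∑ i, x i * g • y i = if g ∈ N then 1 else 0) {b : B}
    (hb : ∀ n ∈ N, n • b = b) : b = ∑ i, x i * cosetSum N (y i * b) := by
  have h1 : ∑ i, x i * cosetSum N (y i * b) = ∑ c : G ⧸ N, (∑ i, x i * c.out • y i) * c.out • b := by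
    simp only [cosetSum, Finset.mul_sum, smul_mul']
    rw [Finset.sum_comm]
    refine Finset.sum_congr rfl fun c _ => ?_
    rw [Finset.sum_mul]
    refine Finset.sum_congr rfl fun i _ => ?_
    ring
  rw [h1]
  rw [Finset.sum_eq_single ((1 : G) : G ⧸ N)]
  · have h2 : ((1 : G) : G ⧸ N).out ∈ N := by
      obtain ⟨k, hk⟩ := QuotientGroup.mk_out_eq_mul N 1
      rw [hk, one_mul]
      exact k.2
    rw [h, if_pos h2, one_mul, hb _ h2]
  · intro c _ hc
    have h2 : c.out ∉ N := by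
      intro h3
      apply hc
      rw [← QuotientGroup.out_eq' c, QuotientGroup.eq]
      simpa using h3
    rw [h, if_neg h2, zero_mul]
  · intro h
    exact absurd (Finset.mem_univ _) h

/-- combining the elements for the different cosets. -/
theorem exists_dual (S : Subring B) (hSN : ∀ s ∈ S, ∀ n ∈ N, n • s = s)
    (hS : ∀ g ∉ N, ∃ (n : ℕ) (x y : Fin n → B), (∀ i, x i ∈ S) ∧ (∀ i, y i ∈ S) ∧
      ∑ i, x i * y i = 1 ∧ ∑ i, x i * g • y i = 0) [DecidablePred (· ∈ N)] :
    ∃ (ι : Type) (_ : Fintype ι) (x y : ι → B), (∀ i, x i ∈ S) ∧ (∀ i, y i ∈ S) ∧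
      ∀ g : G, ∑ i, x i * g • y i = if g ∈ N then 1 else 0 := by
  classical
  have hS' : ∀ c : {c : G ⧸ N // c ≠ ((1 : G) : G ⧸ N)}, ∃ (n : ℕ) (x y : Fin n → B),
      (∀ i, x i ∈ S) ∧ (∀ i, y i ∈ S) ∧
      ∑ i, x i * y i = 1 ∧ ∑ i, x i * c.1.out • y i = 0 := by
    intro c
    refine hS _ fun h3 => c.2 ?_
    rw [← QuotientGroup.out_eq' c.1, QuotientGroup.eq]
    simpa using h3
  choose n x y hx hy h1 h0 using hS'
  let C := {c : G ⧸ N // c ≠ ((1 : G) : G ⧸ N)}
  obtain ⟨m, ⟨e⟩⟩ : ∃ m, Nonempty (C ≃ Fin m) := ⟨_, ⟨Fintype.equivFin C⟩⟩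
  let ι := ∀ j : Fin m, Fin (n (e.symm j))
  refine ⟨ι, inferInstance, fun f => ∏ j, x (e.symm j) (f j), fun f => ∏ j, y (e.symm j) (f j),
    fun f => S.prod_mem fun j _ => hx _ _, fun f => S.prod_mem fun j _ => hy _ _, fun g => ?_⟩
  have hprod : ∑ f : ι, (∏ j, x (e.symm j) (f j)) * g • (∏ j, y (e.symm j) (f j)) =
      ∏ j, ∑ i, x (e.symm j) i * g • y (e.symm j) i := by
    rw [Finset.prod_univ_sum]
    simp only [Fintype.piFinset_univ]
    refine Finset.sum_congr rfl fun f _ => ?_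
    rw [Finset.smul_prod', ← Finset.prod_mul_distrib]
  rw [hprod]
  split_ifs with hg
  · refine Finset.prod_eq_one fun j _ => ?_
    rw [← h1 (e.symm j)]
    refine Finset.sum_congr rfl fun i _ => ?_
    rw [hSN _ (hy _ _) g hg]
  · have hc : (g : G ⧸ N) ≠ ((1 : G) : G ⧸ N) := by
      intro h
      rw [eq_comm, QuotientGroup.eq] at h
      apply hg
      simpa using h
    refine Finset.prod_eq_zero (Finset.mem_univ (e ⟨_, hc⟩)) ?_
    rw [e.symm_apply_apply]
    have h2 := h0 ⟨_, hc⟩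
    simp only at h2
    rw [← h2]
    refine Finset.sum_congr rfl fun i _ => ?_
    rw [out_smul (hSN _ (hy _ _))]

end Generic

section Functions

/-- Functions on `T` with values in `ℚ̄`, with the semilinear Galois action. -/
def Fn (T : Type*) := T → Qbar

noncomputable instance {T : Type*} : CommRing (Fn T) := inferInstanceAs (CommRing (T → Qbar))

/-- view a function as an element of `Fn T`. -/
def toFn {T : Type*} (φ : T → Qbar) : Fn T := φ

/-- view an element of `Fn T` as a function. -/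
def ofFn {T : Type*} (φ : Fn T) : T → Qbar := φ

variable {T : Type*} [MulAction GQ T]

noncomputable instance : MulSemiringAction GQ (Fn T) where
  smul σ φ := fun t => σ (φ (σ⁻¹ • t))
  one_smul φ := by
    funext t
    show (1 : GQ) (φ ((1 : GQ)⁻¹ • t)) = φ t
    rw [inv_one, one_smul]
    rfl
  mul_smul σ τ φ := by
    funext t
    show (σ * τ) (φ ((σ * τ)⁻¹ • t)) = σ (τ (φ (τ⁻¹ • σ⁻¹ • t)))
    rw [mul_inv_rev, mul_smul]
    rfl
  smul_zero σ := by
    funext t
    exact map_zero σ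
  smul_add σ φ ψ := by
    funext t
    exact map_add σ _ _
  smul_one σ := by
    funext t
    exact map_one σ
  smul_mul σ φ ψ := by
    funext t
    exact map_mul σ _ _

theorem fn_smul_apply (σ : GQ) (φ : Fn T) (t : T) : (σ • φ) t = σ (φ (σ⁻¹ • t)) := rfl

theorem fn_smul_eq_iff {σ : GQ} {φ : Fn T} : σ • φ = φ ↔ ∀ t, φ (σ • t) = σ (φ t) := by
  constructor
  · intro h t
    conv_lhs => rw [← h]
    rw [fn_smul_apply, inv_smul_smul]
  · intro h
    funext t
    rw [fn_smul_apply, ← h, smul_inv_smul]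

theorem exists_ZL_of_fixed {p : ℕ} {z : Qbar} (hz : ∀ σ : GQ, σ z = z)
    (hint : IsIntegral (ZL p) z) : ∃ r : ZL p, algebraMap (ZL p) Qbar r = z := by
  have h1 : ∃ q : ℚ, algebraMap ℚ Qbar q = z :=
    (InfiniteGalois.mem_range_algebraMap_iff_fixed (k := ℚ) _).mpr hz
  obtain ⟨q, hq⟩ := h1
  have : IsScalarTower (ZL p) ℚ Qbar := IsScalarTower.of_algebraMap_eq fun r => rfl
  rw [← hq, isIntegral_algebraMap_iff (algebraMap ℚ Qbar).injective] at hint
  obtain ⟨y, hy⟩ := IsIntegrallyClosed.isIntegral_iff.mp hint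
  exact ⟨y, by rw [← hq, ← hy]; rfl⟩

theorem isIntegral_galois {p : ℕ} {z : Qbar} (σ : GQ) (hint : IsIntegral (ZL p) z) :
    IsIntegral (ZL p) (σ z) := by
  have : IsScalarTower (ZL p) ℚ Qbar := IsScalarTower.of_algebraMap_eq fun r => rfl
  exact hint.map (σ.toAlgHom.restrictScalars (ZL p))

end Functions

section Main

variable {p : ℕ}

/-- **Descent of flat models along unramified extensions.** -/
theorem isFlatModel_of_descent {T : Type} [AddCommGroup T] [Finite T] [DistribMulAction GQ T]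
    (hp : p.Prime) (N : Subgroup GQ) [N.FiniteIndex]
    (S : Subalgebra (ZL p) Qbar) (hSint : ∀ s ∈ S, IsIntegral (ZL p) s)
    (hSN : ∀ s ∈ S, ∀ σ ∈ N, σ s = s)
    (hS : ∀ σ : GQ, σ ∉ N → ∃ (n : ℕ) (x y : Fin n → Qbar), (∀ i, x i ∈ S) ∧ (∀ i, y i ∈ S) ∧
      ∑ i, x i * y i = 1 ∧ ∑ i, x i * σ (y i) = 0)
    (𝔸 : Subalgebra (ZL p) (T → Qbar)) (hfg : (Subalgebra.toSubmodule 𝔸).FG)
    (hconst : ∀ s ∈ S, (fun _ => s : T → Qbar) ∈ 𝔸)
    (hG : ∀ φ ∈ 𝔸, ∀ σ : GQ, (fun t => σ (φ (σ⁻¹ • t))) ∈ 𝔸)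
    (hN : ∀ φ ∈ 𝔸, ∀ σ ∈ N, ∀ t, φ (σ • t) = σ (φ t))
    (hsep : ∀ s t, (∀ h ∈ 𝔸, h s = h t) → s = t)
    (hcomul : ∀ h ∈ 𝔸, ∃ (n : ℕ) (a b : Fin n → T → Qbar), (∀ i, a i ∈ 𝔸) ∧ (∀ i, b i ∈ 𝔸) ∧
      ∀ s t, h (s + t) = ∑ i, a i s * b i t) :
    IsFlatModel p T (fun σ t => σ • t) := by
  classical
  have hfinN : Finite (GQ ⧸ N) := inferInstance
  let _ : Fintype (GQ ⧸ N) := Fintype.ofFinite _
  obtain ⟨ι, _, x, y, hx, hy, hxy⟩ := exists_dual (N := N) S.toSubring
    (fun s hs n hn => hSN s hs n hn) (fun g hg => hS g hg)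
  -- the dual elements as constant functions
  let x' : ι → Fn T := fun i _ => x i
  let y' : ι → Fn T := fun i _ => y i
  have hxy' : ∀ g : GQ, ∑ i, x' i * g • y' i = if g ∈ N then 1 else 0 := by
    intro g
    funext t
    have h1 := hxy g
    have h2 : (∑ i, x' i * g • y' i : Fn T) t = ∑ i, x i * g • y i := by
      have : (∑ i, x' i * g • y' i : Fn T) t = ∑ i, (x' i * g • y' i : Fn T) t :=
        Finset.sum_apply (M := fun _ : T => Qbar) t _ _
      rw [this]
      rfl
    rw [h2, h1]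
    split_ifs <;> rfl
  -- elements of `𝔸` are `N`-invariant
  have hNinv : ∀ φ ∈ 𝔸, ∀ n ∈ N, n • toFn φ = φ := fun φ hφ n hn =>
    fn_smul_eq_iff.mpr (hN φ hφ n hn)
  -- traces
  have hTr : ∀ φ ∈ 𝔸, ofFn (cosetSum N (toFn φ)) ∈ 𝔸 := by
    intro φ hφ
    have h1 : ofFn (cosetSum N (toFn φ)) = ∑ c : GQ ⧸ N, ofFn (c.out • toFn φ) := rfl
    rw [h1]
    exact 𝔸.toSubring.sum_mem fun c _ => hG φ hφ _
  have hTr' : ∀ φ ∈ 𝔸, ∀ (σ : GQ) (t : T), ofFn (cosetSum N (toFn φ)) (σ • t) =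
      σ (ofFn (cosetSum N (toFn φ)) t) := fun φ hφ σ =>
    fn_smul_eq_iff.mp (smul_cosetSum (hNinv φ hφ) σ)
  let D : ι → (T → Qbar) → (T → Qbar) := fun i φ => ofFn (cosetSum N (y' i * toFn φ))
  -- the invariant subalgebra
  let H : Subalgebra (ZL p) (T → Qbar) :=
    { carrier := {φ | φ ∈ 𝔸 ∧ ∀ (σ : GQ) (t : T), φ (σ • t) = σ (φ t)}
      mul_mem' := fun {a b} ha hb => ⟨𝔸.mul_mem ha.1 hb.1, fun σ t => by
        rw [Pi.mul_apply, Pi.mul_apply, ha.2, hb.2, map_mul]⟩
      add_mem' := fun {a b} ha hb => ⟨𝔸.add_mem ha.1 hb.1, fun σ t => by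
        rw [Pi.add_apply, Pi.add_apply, ha.2, hb.2, map_add]⟩
      algebraMap_mem' := fun r => ⟨𝔸.algebraMap_mem r, fun σ t => by
        rw [Pi.algebraMap_apply, Pi.algebraMap_apply]
        exact (σ.commutes (r : ℚ)).symm⟩ }
  have hHmem : ∀ φ, φ ∈ H ↔ φ ∈ 𝔸 ∧ ∀ (σ : GQ) (t : T), φ (σ • t) = σ (φ t) := fun φ => Iff.rfl
  have hy'mem : ∀ i, (y' i : T → Qbar) ∈ 𝔸 := fun i => hconst _ (hy i)
  have hx'mem : ∀ i, (x' i : T → Qbar) ∈ 𝔸 := fun i => hconst _ (hx i)
  have hdec : ∀ φ ∈ 𝔸, ∀ t, φ t = ∑ i, x i * D i φ t := by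
    intro φ hφ t
    have h1 := eq_sum_mul_cosetSum hxy' (hNinv φ hφ)
    have h2 := congrFun h1 t
    refine h2.trans ?_
    exact Finset.sum_apply (M := fun _ : T => Qbar) t _ _
  have hTH : ∀ φ ∈ 𝔸, ∀ i, D i φ ∈ H := fun φ hφ i =>
    ⟨hTr _ (𝔸.mul_mem (hy'mem i) hφ), hTr' _ (𝔸.mul_mem (hy'mem i) hφ)⟩
  -- traces of elements of `S`
  have hSint' : ∀ s ∈ S, IsIntegral (ZL p) (cosetSum N s) := by
    intro s hs
    rw [cosetSum]
    exact IsIntegral.sum _ fun c _ => isIntegral_galois _ (hSint s hs)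
  have hStr : ∀ s ∈ S, ∃ r : ZL p, algebraMap (ZL p) Qbar r = cosetSum N s := by
    intro s hs
    refine exists_ZL_of_fixed (fun σ => ?_) (hSint' s hs)
    exact smul_cosetSum (fun n hn => hSN s hs n hn) σ
  -- an element of trace one
  obtain ⟨e, heS, he⟩ : ∃ e ∈ S, cosetSum N e = 1 := by
    have h1 := eq_sum_mul_cosetSum hxy (b := 1) (fun n _ => smul_one n)
    simp only [mul_one] at h1
    choose r hr using fun i => hStr (y i) (hy i)
    obtain ⟨i, hi⟩ : ∃ i, IsUnit (r i) := by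
      by_contra hcon
      push Not at hcon
      have h2 : ∀ i, (p : ZL p) ∣ r i := fun i => (isUnit_or_dvd hp (r i)).resolve_left (hcon i)
      choose c hc using h2
      have h3 : (1 : Qbar) = (p : Qbar) * ∑ i, x i * algebraMap (ZL p) Qbar (c i) := by
        rw [Finset.mul_sum]
        conv_lhs => rw [h1]
        refine Finset.sum_congr rfl fun i _ => ?_
        rw [← hr, hc, map_mul, map_natCast]
        ring
      have h4 : IsIntegral (ZL p) (∑ i, x i * algebraMap (ZL p) Qbar (c i)) :=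
        IsIntegral.sum _ fun i _ => (hSint _ (hx i)).mul isIntegral_algebraMap
      have hp0 : (p : Qbar) ≠ 0 := by exact_mod_cast hp.ne_zero
      have h5 : ∑ i, x i * algebraMap (ZL p) Qbar (c i) = algebraMap ℚ Qbar ((p : ℚ)⁻¹) := by
        rw [map_inv₀, map_natCast]
        exact (inv_eq_of_mul_eq_one_right h3.symm).symm
      have : IsScalarTower (ZL p) ℚ Qbar := IsScalarTower.of_algebraMap_eq fun r => rfl
      rw [h5, isIntegral_algebraMap_iff (algebraMap ℚ Qbar).injective] at h4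
      obtain ⟨z, hz⟩ := IsIntegrallyClosed.isIntegral_iff.mp h4
      apply not_isUnit_natCast hp
      refine IsUnit.of_mul_eq_one z ?_
      apply Subtype.ext
      have hz' : (z : ℚ) = (p : ℚ)⁻¹ := hz
      push_cast
      rw [hz']
      exact mul_inv_cancel₀ (by exact_mod_cast hp.ne_zero)
    obtain ⟨u, hu⟩ := hi.exists_right_inv
    refine ⟨algebraMap (ZL p) Qbar u * y i, S.mul_mem (S.algebraMap_mem u) (hy i), ?_⟩
    have h6 : cosetSum N (algebraMap (ZL p) Qbar u * y i) =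
        algebraMap (ZL p) Qbar u * cosetSum N (y i) := by
      rw [cosetSum, cosetSum, Finset.mul_sum]
      refine Finset.sum_congr rfl fun c _ => ?_
      rw [smul_mul']
      congr 1
      exact c.out.commutes (u : ℚ)
    rw [h6, ← hr, ← map_mul, mul_comm, hu, map_one]
  -- finiteness of `H`
  have hfinH : Module.Finite (ZL p) H := by
    have h1 : IsNoetherian (ZL p) (Subalgebra.toSubmodule 𝔸) :=
      isNoetherian_of_fg_of_noetherian _ hfg
    have h2 : (Subalgebra.toSubmodule H).FG :=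
      (isNoetherian_submodule.mp h1) _ fun φ hφ => hφ.1
    exact Module.Finite.iff_fg.mpr h2
  refine isFlatModel_of_order' (fun σ t => σ • t) (fun σ => MulAction.surjective σ)
    (fun σ => smul_zero σ) H (fun h hh σ t => hh.2 σ t) ?_ ?_
  · -- separation
    intro s t hst
    refine hsep s t fun φ hφ => ?_
    rw [hdec φ hφ s, hdec φ hφ t]
    refine Finset.sum_congr rfl fun i _ => ?_
    rw [hst _ (hTH φ hφ i)]
  · -- comultiplication
    intro h hh
    obtain ⟨n, a, b, ha, hb, hab⟩ := hcomul h hh.1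
    choose r hr using fun i j => hStr (e * (x i * x j))
      (S.mul_mem heS (S.mul_mem (hx i) (hx j)))
    have hABsum : ∀ s t, h (s + t) = ∑ q : Fin n × ι × ι, (x q.2.1 * x q.2.2) *
        (D q.2.1 (a q.1) s *
          D q.2.2 (b q.1) t) := by
      intro s t
      rw [hab, Fintype.sum_prod_type]
      refine Finset.sum_congr rfl fun k _ => ?_
      rw [hdec _ (ha k) s, hdec _ (hb k) t, Finset.sum_mul_sum, Fintype.sum_prod_type]
      refine Finset.sum_congr rfl fun i _ => Finset.sum_congr rfl fun j _ => ?_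
      ring
    have hfinal : ∀ s t, h (s + t) = ∑ q : Fin n × ι × ι, algebraMap (ZL p) Qbar (r q.2.1 q.2.2) *
        (D q.2.1 (a q.1) s *
          D q.2.2 (b q.1) t) := by
      intro s t
      have h1 : ∀ c : GQ ⧸ N, h (s + t) = ∑ q : Fin n × ι × ι, c.out (x q.2.1 * x q.2.2) *
        (D q.2.1 (a q.1) s *
          D q.2.2 (b q.1) t) := by
        intro c
        have h2 : h (s + t) = c.out (h (c.out⁻¹ • s + c.out⁻¹ • t)) := by
          rw [← hh.2, smul_add, smul_inv_smul, smul_inv_smul]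
        rw [h2, hABsum, map_sum]
        refine Finset.sum_congr rfl fun q _ => ?_
        rw [map_mul, map_mul c.out (D q.2.1 (a q.1) (c.out⁻¹ • s)),
          ← (hTH _ (ha q.1) q.2.1).2, ← (hTH _ (hb q.1) q.2.2).2, smul_inv_smul, smul_inv_smul]
      calc h (s + t) = (∑ c : GQ ⧸ N, c.out e) * h (s + t) := by
            have : (∑ c : GQ ⧸ N, c.out e) = 1 := he
            rw [this, one_mul]
        _ = ∑ c : GQ ⧸ N, c.out e * ∑ q : Fin n × ι × ι, c.out (x q.2.1 * x q.2.2) *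
              (D q.2.1 (a q.1) s *
              D q.2.2 (b q.1) t) := by
            rw [Finset.sum_mul]
            exact Finset.sum_congr rfl fun c _ => by rw [← h1 c]
        _ = _ := by
            simp only [Finset.mul_sum]
            rw [Finset.sum_comm]
            refine Finset.sum_congr rfl fun q _ => ?_
            have h5 : cosetSum N (e * (x q.2.1 * x q.2.2)) =
              ∑ c : GQ ⧸ N, c.out • (e * (x q.2.1 * x q.2.2)) := rfl
            rw [hr, h5, Finset.sum_mul]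
            refine Finset.sum_congr rfl fun c _ => ?_
            rw [← mul_assoc]
            congr 1
            exact (map_mul c.out _ _).symm
    let E := Fintype.equivFin (Fin n × ι × ι)
    refine ⟨_, fun k => r (E.symm k).2.1 (E.symm k).2.2 •
      D (E.symm k).2.1 (a (E.symm k).1),
      fun k => D (E.symm k).2.2 (b (E.symm k).1), ?_, ?_, ?_⟩
    · intro k
      exact H.smul_mem (hTH _ (ha _) _) _
    · intro k
      exact hTH _ (hb _) _
    · intro s t
      rw [hfinal, ← Equiv.sum_comp E.symm]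
      refine Finset.sum_congr rfl fun k _ => ?_
      rw [← mul_assoc]
      congr 1
      exact (Algebra.smul_def _ _).symm

end Main

end Fermat.Agent.EllFlat
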