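import Mathlib
import Fermat.Agent.EllFlat.Coord
import Fermat.Agent.EllFlat.Descent
import Fermat.Agent.EllRed.Equivariance

set_option autoImplicit false

/-!
# Good reduction: `E[p^n]` is the generic fibre of a finite flat group scheme over `ℤ₍p₎`
-/

open WeierstrassCurve WeierstrassCurve.Affine WeierstrassCurve.Affine.Point
open Fermat.Agent.Flat Fermat.Agent.RedHom Fermat.Agent.EllRed

namespace Fermat.Agent.EllFlat

/-- `W` has good reduction at all places of `ℚ̄` above `p` (with this equation). -/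
def HasGoodRed (W : WeierstrassCurve ℚ) (p : ℕ) : Prop :=
  ∀ A : ValuationSubring Qbar, A.LiesOverPrime p →
    ∃ U : WeierstrassCurve (IsLocalRing.ResidueField A),
      CurveRed (IsLocalRing.residue A) (W⁄Qbar) U ∧ U.Δ ≠ 0

theorem hasGoodRed_of_int {p : ℕ} (hp : p.Prime) (W : WeierstrassCurve ℤ)
    (hW : ¬ (p : ℤ) ∣ W.Δ) : HasGoodRed (W.map (Int.castRingHom ℚ)) p := by
  intro A hA
  refine ⟨W.map (Int.castRingHom _), curveRed_int _ W, ?_⟩
  rw [WeierstrassCurve.map_Δ]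
  exact intCast_residueField_ne_zero hp hA hW

theorem inv_mem_of_notMem_nonunits {L : Type*} [Field L] {A : ValuationSubring L} {x : L}
    (hx : x ∉ A.nonunits) : x⁻¹ ∈ A := by
  by_contra hcon
  apply hx
  have := (A.inv_mem_nonunits_iff (x := x⁻¹)).mpr (Or.inr hcon)
  rwa [inv_inv] at this

theorem ne_zero_of_notMem_nonunits {L : Type*} [Field L] {A : ValuationSubring L} {x : L}
    (hx : x ∉ A.nonunits) : x ≠ 0 := by
  rintro rfl
  apply hx
  rw [ValuationSubring.mem_nonunits_iff, _root_.map_zero]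
  exact zero_lt_one

theorem eq_zero_of_coprime {M : Type*} [AddGroup M] {a b : ℕ} (hab : a.Coprime b) {x : M}
    (ha : a • x = 0) (hb : b • x = 0) : x = 0 := by
  have h1 : addOrderOf x ∣ Nat.gcd a b :=
    Nat.dvd_gcd (addOrderOf_dvd_of_nsmul_eq_zero ha) (addOrderOf_dvd_of_nsmul_eq_zero hb)
  rw [hab.gcd_eq_one, Nat.dvd_one, AddMonoid.addOrderOf_eq_one_iff] at h1
  exact h1

section Place

variable {L k : Type*} [Field L] [Field k] {A : ValuationSubring L} {φ : A →+* k} [IsLocalHom φ]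
  {V : WeierstrassCurve L} {U : WeierstrassCurve k} [DecidableEq L] [DecidableEq k]

/-- The reduction of (`q`-torsion plus non-zero `m`-torsion) is not `0`. -/
theorem red_ne_zero (h : CurveRed φ V U) (hU : U.Δ ≠ 0) {m q : ℕ} (hm : (m : k) ≠ 0)
    (hmq : m.Coprime q) {P R : V.toAffine.Point} (hP : q • P = 0) (hR : m • R = 0) (hR0 : R ≠ 0)
    {Q : U.toAffine.Point} (hQ : PointRed φ (P + R) Q) : Q ≠ 0 := by
  rintro rfl
  have hV := isElliptic_of_red h hU
  apply hR0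
  have h1 := hQ.nsmul h q
  rw [nsmul_zero, smul_add, hP, zero_add] at h1
  have h2 : m • (q • R) = 0 := by rw [nsmul_left_comm, hR, nsmul_zero]
  exact eq_zero_of_coprime hmq hR (eq_zero_of_pointRed_zero h hm h2 h1)

end Place

section Global

variable {p : ℕ} {W : WeierstrassCurve ℚ} [DecidableEq Qbar] {m q : ℕ}

theorem exists_red (hW : HasGoodRed W p) (hp : p.Prime) (hmp : m.Coprime p)
    (A : ValuationSubring Qbar) (hA : A.LiesOverPrime p) :
    ∃ (k : Type) (_ : Field k) (_ : DecidableEq k) (φ : A →+* k) (_ : IsLocalHom φ)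
      (U : WeierstrassCurve k) (_ : CurveRed φ (W⁄Qbar) U) (_ : U.Δ ≠ 0), (m : k) ≠ 0 := by
  obtain ⟨U, hU, hΔ⟩ := hW A hA
  refine ⟨_, inferInstance, Classical.decEq _, _, inferInstance, U, hU, hΔ, ?_⟩
  refine natCast_residueField_ne_zero hp hA ?_
  intro h
  have := Nat.Coprime.eq_one_of_dvd hmp.symm h
  exact hp.one_lt.ne' this

theorem isElliptic_of_hasGoodRed (hW : HasGoodRed W p) (hp : p.Prime) (A : ValuationSubring Qbar)
    (hA : A.LiesOverPrime p) : WeierstrassCurve.IsElliptic (W⁄Qbar) := by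
  obtain ⟨U, hU, hΔ⟩ := hW A hA
  exact isElliptic_of_red hU hΔ

theorem cx_cy_mem (hW : HasGoodRed W p) (hp : p.Prime) (hmp : m.Coprime p) (hmq : m.Coprime q)
    {P R : (W⁄Qbar).Point} (hP : q • P = 0) (hR : m • R = 0) (hR0 : R ≠ 0)
    (A : ValuationSubring Qbar) (hA : A.LiesOverPrime p) :
    cx (P + R) ∈ A ∧ cy (P + R) ∈ A := by
  obtain ⟨k, _, _, φ, _, U, hU, hΔ, hm⟩ := exists_red (m := m) hW hp hmp A hA
  have h1 := pointRed_redHomOfGood hU hΔ (P + R)
  have h2 := red_ne_zero hU hΔ hm hmq hP hR hR0 h1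
  obtain ⟨h3, h4⟩ := redTo_coord h1 h2
  exact ⟨h3.mem, h4.mem⟩

theorem isIntegral_cx (hW : HasGoodRed W p) (hp : p.Prime) (hmp : m.Coprime p)
    (hmq : m.Coprime q) {P R : (W⁄Qbar).Point} (hP : q • P = 0) (hR : m • R = 0) (hR0 : R ≠ 0) :
    IsIntegral (ZL p) (cx (P + R)) :=
  isIntegral_of_forall_mem hp fun A hA => (cx_cy_mem hW hp hmp hmq hP hR hR0 A hA).1

theorem isIntegral_cy (hW : HasGoodRed W p) (hp : p.Prime) (hmp : m.Coprime p)
    (hmq : m.Coprime q) {P R : (W⁄Qbar).Point} (hP : q • P = 0) (hR : m • R = 0) (hR0 : R ≠ 0) :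
    IsIntegral (ZL p) (cy (P + R)) :=
  isIntegral_of_forall_mem hp fun A hA => (cx_cy_mem hW hp hmp hmq hP hR hR0 A hA).2

/-- reductions are different. -/
theorem red_ne_red {L k : Type*} [Field L] [Field k] {A : ValuationSubring L} {φ : A →+* k}
    [IsLocalHom φ] {V : WeierstrassCurve L} {U : WeierstrassCurve k} [DecidableEq L]
    [DecidableEq k] (h : CurveRed φ V U) (hU : U.Δ ≠ 0) (hm : (m : k) ≠ 0)
    (hmq : m.Coprime q) {P R P' R' : V.toAffine.Point} (hP : q • P = 0) (hR : m • R = 0)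
    (hP' : q • P' = 0) (hR' : m • R' = 0) (hne : R ≠ R')
    {Q Q' : U.toAffine.Point} (hQ : PointRed φ (P + R) Q) (hQ' : PointRed φ (P' + R') Q') :
    Q ≠ Q' := by
  rintro rfl
  have h1 := hQ.sub h hQ'
  rw [sub_self] at h1
  have h2 : P + R - (P' + R') = (P - P') + (R - R') := by abel
  rw [h2] at h1
  exact red_ne_zero h hU hm hmq (by rw [smul_sub, hP, hP', sub_zero])
    (by rw [smul_sub, hR, hR', sub_zero]) (sub_ne_zero.mpr hne) h1 rfl

theorem cx_sub_notMem (hW : HasGoodRed W p) (hp : p.Prime) (hmp : m.Coprime p)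
    (hmq : m.Coprime q) {P R P' R' : (W⁄Qbar).Point} (hP : q • P = 0) (hR : m • R = 0)
    (hP' : q • P' = 0) (hR' : m • R' = 0) (hR0 : R ≠ 0) (hR0' : R' ≠ 0) (hne : R ≠ R')
    (hne' : R ≠ -R') (A : ValuationSubring Qbar) (hA : A.LiesOverPrime p) :
    cx (P + R) - cx (P' + R') ∉ A.nonunits := by
  obtain ⟨k, _, _, φ, _, U, hU, hΔ, hm⟩ := exists_red (m := m) hW hp hmp A hA
  have h1 := pointRed_redHomOfGood hU hΔ (P + R)
  have h2 := pointRed_redHomOfGood hU hΔ (P' + R')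
  refine cx_ne_of_red_ne h1 h2 (red_ne_zero hU hΔ hm hmq hP hR hR0 h1)
    (red_ne_zero hU hΔ hm hmq hP' hR' hR0' h2)
    (red_ne_red hU hΔ hm hmq hP hR hP' hR' hne h1 h2) ?_
  refine red_ne_red hU hΔ hm hmq hP hR (P' := -P') (R' := -R') ?_ ?_ hne' h1 ?_
  · rw [smul_neg, hP', _root_.neg_zero]
  · rw [smul_neg, hR', _root_.neg_zero]
  · rw [← neg_add]
    exact h2.neg hU

theorem isIntegral_inv (hW : HasGoodRed W p) (hp : p.Prime) (hmp : m.Coprime p)
    (hmq : m.Coprime q) {P R P' R' : (W⁄Qbar).Point} (hP : q • P = 0) (hR : m • R = 0)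
    (hP' : q • P' = 0) (hR' : m • R' = 0) (hR0 : R ≠ 0) (hR0' : R' ≠ 0) (hne : R ≠ R')
    (hne' : R ≠ -R') : IsIntegral (ZL p) (cx (P + R) - cx (P' + R'))⁻¹ :=
  isIntegral_of_forall_mem hp fun A hA => inv_mem_of_notMem_nonunits
    (cx_sub_notMem hW hp hmp hmq hP hR hP' hR' hR0 hR0' hne hne' A hA)

theorem coord_sub_notMem (hW : HasGoodRed W p) (hp : p.Prime) (hmp : m.Coprime p)
    {R R' : (W⁄Qbar).Point} (hR : m • R = 0)
    (hR' : m • R' = 0) (hR0 : R ≠ 0) (hR0' : R' ≠ 0) (hne : R ≠ R')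
    (A : ValuationSubring Qbar) (hA : A.LiesOverPrime p) :
    cx R - cx R' ∉ A.nonunits ∨ cy R - cy R' ∉ A.nonunits := by
  obtain ⟨k, _, _, φ, _, U, hU, hΔ, hm⟩ := exists_red (m := m) hW hp hmp A hA
  have h1 := pointRed_redHomOfGood hU hΔ R
  have h2 := pointRed_redHomOfGood hU hΔ R'
  have hV : WeierstrassCurve.IsElliptic (W⁄Qbar) := isElliptic_of_red hU hΔ
  refine coord_ne_of_red_ne h1 h2 (fun h0 => hR0 ?_) (fun h0 => hR0' ?_) (fun h0 => hne ?_)
  · rw [h0] at h1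
    exact eq_zero_of_pointRed_zero hU hm hR h1
  · rw [h0] at h2
    exact eq_zero_of_pointRed_zero hU hm hR' h2
  · rw [h0] at h1
    exact eq_of_pointRed hU hm hR hR' h1 h2

theorem exists_coeff (hp : p.Prime) {a : ℚ}
    (ha : ∀ A : ValuationSubring Qbar, A.LiesOverPrime p → algebraMap ℚ Qbar a ∈ A) :
    ∃ r : ZL p, algebraMap (ZL p) Qbar r = algebraMap ℚ Qbar a :=
  exists_ZL_of_fixed (fun σ => σ.commutes a) (isIntegral_of_forall_mem hp ha)

/-- The coefficients of a curve with good reduction are in `ℤ₍p₎`. -/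
theorem exists_coeffs (hW : HasGoodRed W p) (hp : p.Prime) :
    (∃ r : ZL p, algebraMap (ZL p) Qbar r = WeierstrassCurve.a₁ (W⁄Qbar)) ∧
    (∃ r : ZL p, algebraMap (ZL p) Qbar r = WeierstrassCurve.a₂ (W⁄Qbar)) ∧
    (∃ r : ZL p, algebraMap (ZL p) Qbar r = WeierstrassCurve.a₃ (W⁄Qbar)) := by
  refine ⟨exists_coeff hp fun A hA => ?_, exists_coeff hp fun A hA => ?_,
    exists_coeff hp fun A hA => ?_⟩
  · obtain ⟨U, hU, -⟩ := hW A hA
    exact hU.a₁.mem
  · obtain ⟨U, hU, -⟩ := hW A hA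
    exact hU.a₂.mem
  · obtain ⟨U, hU, -⟩ := hW A hA
    exact hU.a₃.mem

theorem cx_smul (σ : GQ) (P : (W⁄Qbar).Point) : cx (σ • P) = σ (cx P) := by
  rcases P with _ | ⟨x, y, hxy⟩
  · rw [← zero_def, algEquiv_smul_def, Point.map_zero, cx_zero, _root_.map_zero]
  · rw [algEquiv_smul_def, Point.map_some, cx_some, cx_some]
    rfl

theorem cy_smul (σ : GQ) (P : (W⁄Qbar).Point) : cy (σ • P) = σ (cy P) := by
  rcases P with _ | ⟨x, y, hxy⟩
  · rw [← zero_def, algEquiv_smul_def, Point.map_zero, cy_zero, _root_.map_zero]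
  · rw [algEquiv_smul_def, Point.map_some, cy_some, cy_some]
    rfl

end Global

end Fermat.Agent.EllFlat
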