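import Mathlib
import Fermat.Agent.EllFlat.Good

set_option autoImplicit false

/-!
# Good reduction: `E[p^n]` is the generic fibre of a finite flat group scheme over `ℤ₍p₎`
-/

open WeierstrassCurve WeierstrassCurve.Affine WeierstrassCurve.Affine.Point
open Fermat.Agent.Flat Fermat.Agent.RedHom Fermat.Agent.EllRed Fermat.Agent.EllTorsion

namespace Fermat.Agent.EllFlat

section Comul

variable {R K S T : Type*} [CommRing R] [CommRing K] [Algebra R K]

/-- pull-back of functions. -/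
def pull (R K : Type*) [CommRing R] [CommRing K] [Algebra R K] {S T : Type*} (f : S → T) :
    (T → K) →ₐ[R] (S → K) :=
  AlgHom.pi fun s => Pi.evalAlgHom R (fun _ : T => K) (f s)

@[simp] theorem pull_apply (f : S → T) (φ : T → K) (s : S) : pull R K f φ s = φ (f s) := rfl

theorem comul_of_mem_sup (𝔸 : Subalgebra R (T → K)) {h : T × T → K}
    (hh : h ∈ 𝔸.map (pull R K Prod.fst) ⊔ 𝔸.map (pull R K Prod.snd)) :
    ∃ (n : ℕ) (a b : Fin n → T → K), (∀ i, a i ∈ 𝔸) ∧ (∀ i, b i ∈ 𝔸) ∧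
      ∀ s t, h (s, t) = ∑ i, a i s * b i t := by
  rw [← Subalgebra.mem_toSubmodule, ← Subalgebra.mul_toSubmodule] at hh
  refine Submodule.mul_induction_on hh ?_ ?_
  · rintro _ ⟨a, ha, rfl⟩ _ ⟨b, hb, rfl⟩
    refine ⟨1, fun _ => a, fun _ => b, fun _ => ha, fun _ => hb, fun s t => ?_⟩
    simp
  · rintro x y ⟨n, a, b, ha, hb, hab⟩ ⟨n', a', b', ha', hb', hab'⟩
    refine ⟨n + n', Fin.append a a', Fin.append b b', ?_, ?_, ?_⟩
    · intro i
      refine Fin.addCases (fun i => ?_) (fun i => ?_) i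
      · rw [Fin.append_left]; exact ha i
      · rw [Fin.append_right]; exact ha' i
    · intro i
      refine Fin.addCases (fun i => ?_) (fun i => ?_) i
      · rw [Fin.append_left]; exact hb i
      · rw [Fin.append_right]; exact hb' i
    · intro s t
      rw [Pi.add_apply, hab, hab', Fin.sum_univ_add]
      simp only [Fin.append_left, Fin.append_right]

end Comul

section Main

variable {p : ℕ} {W : WeierstrassCurve ℚ} [DecidableEq Qbar] {m q : ℕ}

theorem isFlatModel_aux (hp : p.Prime) (hW : HasGoodRed W p)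
    [WeierstrassCurve.IsElliptic (W⁄Qbar)] (hmp : m.Coprime p) (hm6 : m.Coprime 6) (hm1 : 1 < m)
    (hmq : m.Coprime q)
    {T : Type} [AddCommGroup T] [Finite T] [DistribMulAction GQ T]
    (ι : T →+ (W⁄Qbar).Point) (hι : Function.Injective ι)
    (hισ : ∀ (σ : GQ) t, ι (σ • t) = σ • ι t)
    (hT : ∀ t : T, q • t = 0) :
    IsFlatModel p T (fun σ t => σ • t) := by
  classical
  have hm0 : m ≠ 0 := by omega
  have hιT : ∀ t, q • ι t = 0 := fun t => by rw [← map_nsmul, hT, _root_.map_zero]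
  -- the `m`-torsion
  let E : AddSubgroup (W⁄Qbar).Point := (nsmulAddMonoidHom (α := (W⁄Qbar).Point) m).ker
  have hEmem : ∀ R, R ∈ E ↔ m • R = 0 := fun R => Iff.rfl
  have hEfin : Finite E := by
    have := (finite_nsmul_eq_zero (W := W⁄Qbar) hm0).to_subtype
    exact this
  have hEσ : ∀ (σ : GQ), ∀ R ∈ E, σ • R ∈ E := by
    intro σ R hR
    rw [hEmem] at hR ⊢
    rw [algEquiv_smul_def, ← map_nsmul, hR, _root_.map_zero]
  have hsadd : ∀ (σ : GQ) (P Q : (W⁄Qbar).Point), σ • (P + Q) = σ • P + σ • Q :=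
    fun σ P Q => (Point.map σ.toAlgHom).map_add P Q
  have hσ0 : ∀ (σ : GQ) (R : (W⁄Qbar).Point), R ≠ 0 → σ • R ≠ 0 := by
    intro σ R hR h0
    apply hR
    have h1 : σ⁻¹ • (σ • R) = σ⁻¹ • (0 : (W⁄Qbar).Point) := by rw [h0]
    rw [inv_smul_smul] at h1
    rw [h1]
    rfl
  have hEne : ∃ R ∈ E, R ≠ 0 := by
    have hc := card_nsmul_eq_zero (W := W⁄Qbar) (n := m) (by exact_mod_cast hm0)
    have h1 : 1 < Nat.card {P : (W⁄Qbar).Point // m • P = 0} := by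
      have h2 : Nat.card {P : (W⁄Qbar).Point // m • P = 0} = m ^ 2 := hc
      rw [h2]
      nlinarith
    have hfin' : Finite {P : (W⁄Qbar).Point // m • P = 0} := hEfin
    have h3 : Nontrivial {P : (W⁄Qbar).Point // m • P = 0} :=
      Finite.one_lt_card_iff_nontrivial.mp h1
    obtain ⟨⟨R, hR⟩, hne⟩ := exists_ne (⟨0, nsmul_zero m⟩ : {P : (W⁄Qbar).Point // m • P = 0})
    exact ⟨R, hR, fun h => hne (Subtype.ext h)⟩
  -- the subgroup fixing the `m`-torsion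
  let N₀ : GQ →* Equiv.Perm E :=
    { toFun := fun σ => ⟨fun R => ⟨σ • R.1, hEσ σ _ R.2⟩, fun R => ⟨σ⁻¹ • R.1, hEσ σ⁻¹ _ R.2⟩,
        fun R => Subtype.ext (inv_smul_smul σ R.1), fun R => Subtype.ext (smul_inv_smul σ R.1)⟩
      map_one' := Equiv.ext fun R => Subtype.ext (one_smul GQ R.1)
      map_mul' := fun σ τ => Equiv.ext fun R => Subtype.ext (mul_smul σ τ R.1) }
  let N : Subgroup GQ := N₀.ker
  have hNmem : ∀ σ, σ ∈ N ↔ ∀ R ∈ E, σ • R = R := by
    intro σ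
    rw [MonoidHom.mem_ker]
    constructor
    · intro h R hR
      have := congrArg (fun f : Equiv.Perm E => (f ⟨R, hR⟩ : E)) h
      exact congrArg Subtype.val this
    · intro h
      exact Equiv.ext fun R => Subtype.ext (h R.1 R.2)
  have hNfin : N.FiniteIndex := Subgroup.finiteIndex_ker N₀
  -- the algebra of constants
  let gS : E × Fin 2 → Qbar := fun x => ![cx x.1.1, cy x.1.1] x.2
  let GS : Set Qbar := gS '' {x | x.1 ≠ 0}
  let S : Subalgebra (ZL p) Qbar := Algebra.adjoin (ZL p) GS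
  have hcxS : ∀ R ∈ E, R ≠ 0 → cx R ∈ S := fun R hR hR0 =>
    Algebra.subset_adjoin ⟨(⟨R, hR⟩, 0), fun h => hR0 (congrArg Subtype.val h), rfl⟩
  have hcyS : ∀ R ∈ E, R ≠ 0 → cy R ∈ S := fun R hR hR0 =>
    Algebra.subset_adjoin ⟨(⟨R, hR⟩, 1), fun h => hR0 (congrArg Subtype.val h), rfl⟩
  have hSle : ∀ S' : Subalgebra (ZL p) Qbar, (∀ R ∈ E, R ≠ 0 → cx R ∈ S') →
      (∀ R ∈ E, R ≠ 0 → cy R ∈ S') → S ≤ S' := by
    intro S' h1 h2
    refine Algebra.adjoin_le ?_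
    rintro _ ⟨⟨⟨R, hR⟩, i⟩, hR0, rfl⟩
    have hR0' : R ≠ 0 := fun h => hR0 (Subtype.ext h)
    fin_cases i
    · exact h1 R hR hR0'
    · exact h2 R hR hR0'
  have hintx : ∀ t, ∀ R ∈ E, R ≠ 0 → IsIntegral (ZL p) (cx (ι t + R)) := fun t R hR hR0 =>
    isIntegral_cx hW hp hmp hmq (hιT t) hR hR0
  have hinty : ∀ t, ∀ R ∈ E, R ≠ 0 → IsIntegral (ZL p) (cy (ι t + R)) := fun t R hR hR0 =>
    isIntegral_cy hW hp hmp hmq (hιT t) hR hR0
  have hintx0 : ∀ R ∈ E, R ≠ 0 → IsIntegral (ZL p) (cx R) := fun R hR hR0 => by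
    have := hintx 0 R hR hR0
    rwa [_root_.map_zero, zero_add] at this
  have hinty0 : ∀ R ∈ E, R ≠ 0 → IsIntegral (ZL p) (cy R) := fun R hR hR0 => by
    have := hinty 0 R hR hR0
    rwa [_root_.map_zero, zero_add] at this
  have hSint : ∀ s ∈ S, IsIntegral (ZL p) s :=
    hSle (integralClosure (ZL p) Qbar) hintx0 hinty0
  have hSN : ∀ s ∈ S, ∀ σ ∈ N, σ s = s := by
    intro s hs σ hσ
    have h1 : S ≤ AlgHom.equalizer ((σ : Qbar →ₐ[ℚ] Qbar).restrictScalars (ZL p))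
        (AlgHom.id (ZL p) Qbar) := by
      refine hSle _ (fun R hR _ => ?_) (fun R hR _ => ?_)
      · show σ (cx R) = cx R
        rw [← cx_smul, (hNmem σ).mp hσ R hR]
      · show σ (cy R) = cy R
        rw [← cy_smul, (hNmem σ).mp hσ R hR]
    exact h1 hs
  have hS : ∀ σ : GQ, σ ∉ N → ∃ (n : ℕ) (x y : Fin n → Qbar), (∀ i, x i ∈ S) ∧ (∀ i, y i ∈ S) ∧
      ∑ i, x i * y i = 1 ∧ ∑ i, x i * σ (y i) = 0 := by
    intro σ hσ
    rw [hNmem] at hσ
    push Not at hσ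
    obtain ⟨R, hR, hσR⟩ := hσ
    have hR0 : R ≠ 0 := by
      rintro rfl
      exact hσR rfl
    have hR' := hEσ σ R hR
    have hR0' := hσ0 σ R hR0
    let d₁ : S := ⟨cx R - cx (σ • R), sub_mem (hcxS R hR hR0) (hcxS _ hR' hR0')⟩
    let d₂ : S := ⟨cy R - cy (σ • R), sub_mem (hcyS R hR hR0) (hcyS _ hR' hR0')⟩
    have htop : Ideal.span {d₁, d₂} = ⊤ := by
      refine eq_top_of_forall_place hp S hSint _ fun A hA => ?_
      rcases coord_sub_notMem hW hp hmp hR hR' hR0 hR0' hσR.symm A hA with h | h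
      · exact ⟨d₁, Ideal.subset_span (by simp), h⟩
      · exact ⟨d₂, Ideal.subset_span (by simp), h⟩
    have h1 : (1 : S) ∈ Ideal.span {d₁, d₂} := by rw [htop]; trivial
    rw [Ideal.mem_span_pair] at h1
    obtain ⟨c₁, c₂, hc⟩ := h1
    have hc' : (c₁ : Qbar) * (cx R - cx (σ • R)) + (c₂ : Qbar) * (cy R - cy (σ • R)) = 1 :=
      congrArg Subtype.val hc
    refine ⟨3, ![c₁, c₂, -((c₁ : Qbar) * cx (σ • R) + c₂ * cy (σ • R))], ![cx R, cy R, 1],
      ?_, ?_, ?_, ?_⟩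
    · intro i
      fin_cases i
      · exact c₁.2
      · exact c₂.2
      · exact neg_mem (add_mem (mul_mem c₁.2 (hcxS _ hR' hR0')) (mul_mem c₂.2 (hcyS _ hR' hR0')))
    · intro i
      fin_cases i
      · exact hcxS R hR hR0
      · exact hcyS R hR hR0
      · exact one_mem S
    · rw [Fin.sum_univ_three]
      simp only [Matrix.cons_val_zero, Matrix.cons_val_one, Matrix.cons_val]
      linear_combination hc'
    · rw [Fin.sum_univ_three]
      simp only [Matrix.cons_val_zero, Matrix.cons_val_one, Matrix.cons_val, _root_.map_one,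
        ← cx_smul, ← cy_smul]
      ring
  -- the algebra of functions
  let gA : E × Fin 4 → (T → Qbar) := fun x => ![fun _ => cx x.1.1, fun _ => cy x.1.1,
    fun t => cx (ι t + x.1.1), fun t => cy (ι t + x.1.1)] x.2
  let GA : Set (T → Qbar) := gA '' {x | x.1 ≠ 0}
  let 𝔸 : Subalgebra (ZL p) (T → Qbar) := Algebra.adjoin (ZL p) GA
  have hmem0 : ∀ R ∈ E, R ≠ 0 → (fun _ => cx R : T → Qbar) ∈ 𝔸 := fun R hR hR0 =>
    Algebra.subset_adjoin ⟨(⟨R, hR⟩, 0), fun h => hR0 (congrArg Subtype.val h), rfl⟩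
  have hmem1 : ∀ R ∈ E, R ≠ 0 → (fun _ => cy R : T → Qbar) ∈ 𝔸 := fun R hR hR0 =>
    Algebra.subset_adjoin ⟨(⟨R, hR⟩, 1), fun h => hR0 (congrArg Subtype.val h), rfl⟩
  have hmem2 : ∀ R ∈ E, R ≠ 0 → (fun t => cx (ι t + R) : T → Qbar) ∈ 𝔸 := fun R hR hR0 =>
    Algebra.subset_adjoin ⟨(⟨R, hR⟩, 2), fun h => hR0 (congrArg Subtype.val h), rfl⟩
  have hmem3 : ∀ R ∈ E, R ≠ 0 → (fun t => cy (ι t + R) : T → Qbar) ∈ 𝔸 := fun R hR hR0 =>
    Algebra.subset_adjoin ⟨(⟨R, hR⟩, 3), fun h => hR0 (congrArg Subtype.val h), rfl⟩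
  have hAle : ∀ 𝔸' : Subalgebra (ZL p) (T → Qbar),
      (∀ R ∈ E, R ≠ 0 → (fun _ => cx R : T → Qbar) ∈ 𝔸') →
      (∀ R ∈ E, R ≠ 0 → (fun _ => cy R : T → Qbar) ∈ 𝔸') →
      (∀ R ∈ E, R ≠ 0 → (fun t => cx (ι t + R) : T → Qbar) ∈ 𝔸') →
      (∀ R ∈ E, R ≠ 0 → (fun t => cy (ι t + R) : T → Qbar) ∈ 𝔸') → 𝔸 ≤ 𝔸' := by
    intro 𝔸' h0 h1 h2 h3
    refine Algebra.adjoin_le ?_
    rintro _ ⟨⟨⟨R, hR⟩, i⟩, hR0, rfl⟩
    have hR0' : R ≠ 0 := fun h => hR0 (Subtype.ext h)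
    fin_cases i
    · exact h0 R hR hR0'
    · exact h1 R hR hR0'
    · exact h2 R hR hR0'
    · exact h3 R hR hR0'
  have hfg : (Subalgebra.toSubmodule 𝔸).FG := by
    refine fg_adjoin_of_finite (Set.toFinite _) ?_
    rintro _ ⟨⟨⟨R, hR⟩, i⟩, hR0, rfl⟩
    have hR0' : R ≠ 0 := fun h => hR0 (Subtype.ext h)
    refine isIntegral_fun fun t => ?_
    fin_cases i
    · exact hintx0 R hR hR0'
    · exact hinty0 R hR hR0'
    · exact hintx t R hR hR0'
    · exact hinty t R hR hR0'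
  have hconst : ∀ s ∈ S, (fun _ => s : T → Qbar) ∈ 𝔸 :=
    hSle (𝔸.comap (Pi.constAlgHom (ZL p) T Qbar)) hmem0 hmem1
  have hG : ∀ φ ∈ 𝔸, ∀ σ : GQ, (fun t => σ (φ (σ⁻¹ • t))) ∈ 𝔸 := by
    intro φ hφ σ
    let f : (T → Qbar) →ₐ[ZL p] (T → Qbar) := AlgHom.pi fun t =>
      ((σ : Qbar →ₐ[ℚ] Qbar).restrictScalars (ZL p)).comp
        (Pi.evalAlgHom (ZL p) (fun _ : T => Qbar) (σ⁻¹ • t))
    have h1 : 𝔸 ≤ 𝔸.comap f := by
      refine hAle _ ?_ ?_ ?_ ?_
      · intro R hR hR0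
        have h2 : f (fun _ => cx R) = fun _ => cx (σ • R) := by
          funext t
          exact (cx_smul σ R).symm
        rw [Subalgebra.mem_comap, h2]
        exact hmem0 _ (hEσ σ R hR) (hσ0 σ R hR0)
      · intro R hR hR0
        have h2 : f (fun _ => cy R) = fun _ => cy (σ • R) := by
          funext t
          exact (cy_smul σ R).symm
        rw [Subalgebra.mem_comap, h2]
        exact hmem1 _ (hEσ σ R hR) (hσ0 σ R hR0)
      · intro R hR hR0
        have h2 : f (fun t => cx (ι t + R)) = fun t => cx (ι t + σ • R) := by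
          funext t
          show σ (cx (ι (σ⁻¹ • t) + R)) = _
          rw [← cx_smul, hsadd, ← hισ, smul_inv_smul]
        rw [Subalgebra.mem_comap, h2]
        exact hmem2 _ (hEσ σ R hR) (hσ0 σ R hR0)
      · intro R hR hR0
        have h2 : f (fun t => cy (ι t + R)) = fun t => cy (ι t + σ • R) := by
          funext t
          show σ (cy (ι (σ⁻¹ • t) + R)) = _
          rw [← cy_smul, hsadd, ← hισ, smul_inv_smul]
        rw [Subalgebra.mem_comap, h2]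
        exact hmem3 _ (hEσ σ R hR) (hσ0 σ R hR0)
    exact h1 hφ
  have hN : ∀ φ ∈ 𝔸, ∀ σ ∈ N, ∀ t, φ (σ • t) = σ (φ t) := by
    intro φ hφ σ hσ t
    have h1 : 𝔸 ≤ AlgHom.equalizer (Pi.evalAlgHom (ZL p) (fun _ : T => Qbar) (σ • t))
        (((σ : Qbar →ₐ[ℚ] Qbar).restrictScalars (ZL p)).comp
        (Pi.evalAlgHom (ZL p) (fun _ : T => Qbar) t)) := by
      refine hAle _ ?_ ?_ ?_ ?_
      · intro R hR hR0
        show cx R = σ (cx R)
        rw [← cx_smul, (hNmem σ).mp hσ R hR]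
      · intro R hR hR0
        show cy R = σ (cy R)
        rw [← cy_smul, (hNmem σ).mp hσ R hR]
      · intro R hR hR0
        show cx (ι (σ • t) + R) = σ (cx (ι t + R))
        rw [← cx_smul, hsadd, (hNmem σ).mp hσ R hR, hισ]
      · intro R hR hR0
        show cy (ι (σ • t) + R) = σ (cy (ι t + R))
        rw [← cy_smul, hsadd, (hNmem σ).mp hσ R hR, hισ]
    exact h1 hφ
  have hadd0 : ∀ t, ∀ R ∈ E, R ≠ 0 → ι t + R ≠ 0 := by
    intro t R hR hR0 h0
    apply hR0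
    have h1 : q • R = 0 := by
      have h2 : q • (ι t + R) = 0 := by rw [h0, nsmul_zero]
      rwa [nsmul_add, hιT, zero_add] at h2
    exact eq_zero_of_coprime hmq hR h1
  have hsep : ∀ s t, (∀ h ∈ 𝔸, h s = h t) → s = t := by
    intro s t hst
    obtain ⟨R, hR, hR0⟩ := hEne
    have h1 := hst _ (hmem2 R hR hR0)
    have h2 := hst _ (hmem3 R hR hR0)
    have h3 := eq_of_coord (hadd0 s R hR hR0) (hadd0 t R hR hR0) h1 h2
    exact hι (add_right_cancel h3)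
  have hcxne : ∀ (s t : T), ∀ R ∈ E, ∀ R' ∈ E, R ≠ 0 → R' ≠ 0 → R ≠ R' → R ≠ -R' →
      cx (ι s + R) ≠ cx (ι t + R') := by
    intro s t R hR R' hR' hR0 hR0' hne hne' h
    rcases eq_or_eq_neg_of_cx (hadd0 s R hR hR0) (hadd0 t R' hR' hR0') h with h1 | h1
    · apply hne
      rw [← sub_eq_zero]
      refine eq_zero_of_coprime hmq (sub_mem hR hR') ?_
      have h2 : R - R' = ι t - ι s := by
        rw [sub_eq_sub_iff_add_eq_add, add_comm, h1, add_comm]
      rw [h2, nsmul_sub, hιT, hιT, sub_zero]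
    · apply hne'
      rw [← sub_eq_zero]
      refine eq_zero_of_coprime hmq (sub_mem hR (neg_mem hR')) ?_
      have h2 : R - -R' = -(ι t) - ι s := by
        rw [sub_eq_sub_iff_add_eq_add, add_comm, h1, neg_add]
      rw [h2, nsmul_sub, hιT, neg_nsmul, hιT, sub_zero, _root_.neg_zero]
  -- comultiplication
  let 𝔹 : Subalgebra (ZL p) (T × T → Qbar) :=
    𝔸.map (pull (ZL p) Qbar Prod.fst) ⊔ 𝔸.map (pull (ZL p) Qbar Prod.snd)
  have hBl : ∀ φ ∈ 𝔸, (fun st : T × T => φ st.1) ∈ 𝔹 := fun φ hφ =>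
    (le_sup_left : _ ≤ 𝔹) ⟨φ, hφ, rfl⟩
  have hBr : ∀ φ ∈ 𝔸, (fun st : T × T => φ st.2) ∈ 𝔹 := fun φ hφ =>
    (le_sup_right : _ ≤ 𝔹) ⟨φ, hφ, rfl⟩
  obtain ⟨⟨r₁, hr₁⟩, ⟨r₂, hr₂⟩, ⟨r₃, hr₃⟩⟩ := exists_coeffs hW hp
  have hBadd : ∀ R ∈ E, R ≠ 0 → (fun st : T × T => cx (ι (st.1 + st.2) + R)) ∈ 𝔹 ∧
      (fun st : T × T => cy (ι (st.1 + st.2) + R)) ∈ 𝔹 := by
    intro R'' hR'' hR0''
    have hcop : ∀ k : ℕ, m.Coprime k → k • R'' ≠ 0 := fun k hk h =>
      hR0'' (eq_zero_of_coprime hk hR'' h)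
    obtain ⟨R, hRdef⟩ : ∃ R, R = -R'' := ⟨_, rfl⟩
    obtain ⟨R', hRdef'⟩ : ∃ R', R' = 2 • R'' := ⟨_, rfl⟩
    have hR : R ∈ E := hRdef ▸ neg_mem hR''
    have hR' : R' ∈ E := hRdef' ▸ nsmul_mem hR'' 2
    have hR0 : R ≠ 0 := by rw [hRdef, neg_ne_zero]; exact hR0''
    have hR0' : R' ≠ 0 := by
      rw [hRdef']
      exact hcop 2 (Nat.Coprime.coprime_dvd_right (by norm_num) hm6)
    have hne : R ≠ R' := by
      rw [hRdef, hRdef']
      intro h
      apply hcop 3 (Nat.Coprime.coprime_dvd_right (by norm_num) hm6)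
      rw [succ_nsmul, ← h, neg_add_cancel]
    have hne' : R ≠ -R' := by
      rw [hRdef, hRdef', Ne, neg_inj, two_nsmul]
      intro h
      exact hR0'' (left_eq_add.mp h)
    have hsum : R + R' = R'' := by rw [hRdef, hRdef', two_nsmul, neg_add_cancel_left]
    -- the coordinate functions
    let X₁ : T × T → Qbar := fun st => cx (ι st.1 + R)
    let Y₁ : T × T → Qbar := fun st => cy (ι st.1 + R)
    let X₂ : T × T → Qbar := fun st => cx (ι st.2 + R')
    let Y₂ : T × T → Qbar := fun st => cy (ι st.2 + R')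
    have hX₁ : X₁ ∈ 𝔹 := hBl _ (hmem2 R hR hR0)
    have hY₁ : Y₁ ∈ 𝔹 := hBl _ (hmem3 R hR hR0)
    have hX₂ : X₂ ∈ 𝔹 := hBr _ (hmem2 R' hR' hR0')
    have hY₂ : Y₂ ∈ 𝔹 := hBr _ (hmem3 R' hR' hR0')
    let u : T × T → Qbar := fun st => (X₁ st - X₂ st)⁻¹
    have hδu : (X₁ - X₂) * u = 1 := by
      funext st
      exact mul_inv_cancel₀ (sub_ne_zero.mpr (hcxne _ _ R hR R' hR' hR0 hR0' hne hne'))
    have hu : _root_.IsIntegral (ZL p) u := isIntegral_fun fun st =>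
      isIntegral_inv hW hp hmp hmq (hιT _) hR (hιT _) hR' hR0 hR0' hne hne'
    have huB : u ∈ 𝔹 := inv_mem_of_isIntegral 𝔹 (sub_mem hX₁ hX₂) hδu hu
    let l : T × T → Qbar := (Y₁ - Y₂) * u
    have hl : l ∈ 𝔹 := mul_mem (sub_mem hY₁ hY₂) huB
    let X₃ : T × T → Qbar := l ^ 2 + algebraMap (ZL p) _ r₁ * l - algebraMap (ZL p) _ r₂ - X₁ - X₂
    have hX₃ : X₃ ∈ 𝔹 := sub_mem (sub_mem (sub_mem (add_mem (pow_mem hl 2)
      (mul_mem (𝔹.algebraMap_mem r₁) hl)) (𝔹.algebraMap_mem r₂)) hX₁) hX₂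
    let Y₃ : T × T → Qbar := -(l * (X₃ - X₁) + Y₁) - algebraMap (ZL p) _ r₁ * X₃ -
      algebraMap (ZL p) _ r₃
    have hY₃ : Y₃ ∈ 𝔹 := sub_mem (sub_mem (neg_mem (add_mem (mul_mem hl (sub_mem hX₃ hX₁)) hY₁))
      (mul_mem (𝔹.algebraMap_mem r₁) hX₃)) (𝔹.algebraMap_mem r₃)
    have hform : ∀ st : T × T, cx (ι (st.1 + st.2) + R'') = X₃ st ∧
        cy (ι (st.1 + st.2) + R'') = Y₃ st := by
      intro st
      have h1 : ι (st.1 + st.2) + R'' = (ι st.1 + R) + (ι st.2 + R') := by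
        rw [_root_.map_add, ← hsum]
        abel
      obtain ⟨h2, h3⟩ := coord_add (hadd0 st.1 R hR hR0) (hadd0 st.2 R' hR' hR0')
        (hcxne st.1 st.2 R hR R' hR' hR0 hR0' hne hne')
      have h4 : cx (ι (st.1 + st.2) + R'') = X₃ st := by
        rw [h1, h2, Affine.addX, ← hr₁, ← hr₂]
        rfl
      refine ⟨h4, ?_⟩
      rw [h1, h3, Affine.addY, Affine.negAddY, Affine.negY, ← h2, ← h1, h4, ← hr₁, ← hr₃]
      rfl
    refine ⟨?_, ?_⟩
    · have : (fun st : T × T => cx (ι (st.1 + st.2) + R'')) = X₃ := funext fun st => (hform st).1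
      rw [this]
      exact hX₃
    · have : (fun st : T × T => cy (ι (st.1 + st.2) + R'')) = Y₃ := funext fun st => (hform st).2
      rw [this]
      exact hY₃
  have hcomul : ∀ h ∈ 𝔸, ∃ (n : ℕ) (a b : Fin n → T → Qbar), (∀ i, a i ∈ 𝔸) ∧ (∀ i, b i ∈ 𝔸) ∧
      ∀ s t, h (s + t) = ∑ i, a i s * b i t := by
    intro h hh
    have h1 : 𝔸 ≤ 𝔹.comap (pull (ZL p) Qbar (fun st : T × T => st.1 + st.2)) :=
      hAle _ (fun R hR hR0 => hBl _ (hmem0 R hR hR0)) (fun R hR hR0 => hBl _ (hmem1 R hR hR0))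
        (fun R hR hR0 => (hBadd R hR hR0).1) (fun R hR hR0 => (hBadd R hR hR0).2)
    exact comul_of_mem_sup 𝔸 (h1 hh)
  exact isFlatModel_of_descent hp N S hSint hSN hS 𝔸 hfg hconst hG hN hsep hcomul

/-- **Good reduction implies finite flat**: a finite Galois stable subgroup of `p`-power exponent
of an elliptic curve with good reduction at `p` is the generic fibre of a finite flat group scheme
over `ℤ₍p₎`. -/
theorem isFlatModel_of_goodRed (hp : p.Prime) (hW : HasGoodRed W p)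
    [WeierstrassCurve.IsElliptic (W⁄Qbar)]
    {T : Type} [AddCommGroup T] [Finite T] [DistribMulAction GQ T]
    (ι : T →+ (W⁄Qbar).Point) (hι : Function.Injective ι)
    (hισ : ∀ (σ : GQ) t, ι (σ • t) = σ • ι t) {n : ℕ} (hT : ∀ t : T, p ^ n • t = 0) :
    IsFlatModel p T (fun σ t => σ • t) := by
  obtain ⟨m, hmp, hm6, hm1⟩ : ∃ m : ℕ, m.Coprime p ∧ m.Coprime 6 ∧ 1 < m := by
    by_cases h5 : p = 5
    · exact ⟨7, by rw [h5]; norm_num, by norm_num, by norm_num⟩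
    · exact ⟨5, (Nat.coprime_primes (by norm_num) hp).mpr (Ne.symm h5), by norm_num, by norm_num⟩
  exact isFlatModel_aux hp hW hmp hm6 hm1 (hmp.pow_right n) ι hι hισ hT

/-- **`E[p^n]` is finite flat at a prime `p` of good reduction.** -/
theorem isFlatModel_torsion (hp : p.Prime) (hW : HasGoodRed W p)
    [WeierstrassCurve.IsElliptic (W⁄Qbar)] (n : ℕ) :
    IsFlatModel p (Submodule.torsionBy ℤ (W⁄Qbar).Point (p ^ n : ℕ)) (fun σ t => σ • t) := by
  have hfin : Finite (Submodule.torsionBy ℤ (W⁄Qbar).Point (p ^ n : ℕ)) := by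
    have h1 := (finite_nsmul_eq_zero (W := W⁄Qbar) (n := p ^ n)
      (pow_ne_zero n hp.ne_zero)).to_subtype
    refine Finite.of_injective (β := {P : (W⁄Qbar).Point | p ^ n • P = 0})
      (fun x => ⟨x.1, ?_⟩) ?_
    · have hx := (Submodule.mem_torsionBy_iff ((p ^ n : ℕ) : ℤ) x.1).1 x.2
      rwa [Nat.cast_smul_eq_nsmul] at hx
    · intro x y hxy
      exact Subtype.ext (congrArg Subtype.val hxy)
  refine isFlatModel_of_goodRed hp hW
    (Submodule.torsionBy ℤ (W⁄Qbar).Point (p ^ n : ℕ)).subtype.toAddMonoidHom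
    Subtype.val_injective (fun _ _ => rfl) (n := n) fun t => ?_
  apply Subtype.ext
  have hx := (Submodule.mem_torsionBy_iff ((p ^ n : ℕ) : ℤ) t.1).1 t.2
  rw [Nat.cast_smul_eq_nsmul] at hx
  exact hx

/-- `E[p^n]` is finite flat at `p ∤ Δ`, for an integral Weierstrass equation. -/
theorem isFlatModel_torsion_of_int (hp : p.Prime) (W : WeierstrassCurve ℤ)
    (hW : ¬ (p : ℤ) ∣ W.Δ) (n : ℕ) :
    IsFlatModel p
      (Submodule.torsionBy ℤ ((W.map (Int.castRingHom ℚ))⁄Qbar).Point (p ^ n : ℕ))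
      (fun σ t => σ • t) := by
  have hΔ : W.Δ ≠ 0 := by
    intro h
    rw [h] at hW
    exact hW (dvd_zero _)
  have : WeierstrassCurve.IsElliptic ((W.map (Int.castRingHom ℚ))⁄Qbar) := by
    rw [WeierstrassCurve.isElliptic_iff, isUnit_iff_ne_zero]
    have h1 : WeierstrassCurve.Δ ((W.map (Int.castRingHom ℚ))⁄Qbar) =
        algebraMap ℚ Qbar ((Int.castRingHom ℚ) W.Δ) := by
      rw [← WeierstrassCurve.map_Δ, ← WeierstrassCurve.map_Δ]
      rfl
    rw [h1]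
    intro h2
    rw [map_eq_zero, eq_intCast, Int.cast_eq_zero] at h2
    exact hΔ h2
  exact isFlatModel_torsion hp (hasGoodRed_of_int hp W hW) n

end Main

end Fermat.Agent.EllFlat
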